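/-
helper306: conditional wiring for S06.
`s06_of_exactConductor`: the statement of S06 follows from
`Mlc1IsModularModelOfExactConductorLevel P.freyCurveInt` (the conclusion of S59 for the
integral Frey curve) together with elementary facts on `freyCurveInt` proved here.
-/
import Fermat.Statements.S06
import Fermat.Prelude.Def_WeierstrassCurve_Mlc1RowStatement

set_option autoImplicit false

namespace Fermat.Agent.S06.helper306

open WeierstrassCurve

/-- `a ^ p ≡ 3 mod 4`, hence `4 ∣ b ^ p - 1 - a ^ p`. -/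
theorem four_dvd_a2_num (P : FreyPackage) : (4 : ℤ) ∣ P.b ^ P.p - 1 - P.a ^ P.p := by
  have hb : (2 : ℤ) ∣ P.b := (ZMod.intCast_zmod_eq_zero_iff_dvd P.b 2).1 P.hb2
  have hp5 := P.hp5
  have hb4 : (4 : ℤ) ∣ P.b ^ P.p := by
    have h1 : (2 : ℤ) ^ 2 ∣ P.b ^ 2 := pow_dvd_pow_of_dvd hb 2
    have h2 : P.b ^ 2 ∣ P.b ^ P.p := pow_dvd_pow _ (by omega)
    exact (by norm_num : (4 : ℤ) = 2 ^ 2) ▸ h1.trans h2
  have ha : ((P.a ^ P.p : ℤ) : ZMod 4) = 3 := by
    push_cast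
    rw [P.ha4]
    have h3 : (3 : ZMod 4) = -1 := by decide
    rw [h3, P.hp_odd.neg_one_pow]
  have h14 : (4 : ℤ) ∣ 1 + P.a ^ P.p := by
    have h4 : ((4 : ℕ) : ℤ) ∣ 1 + P.a ^ P.p := by
      rw [← ZMod.intCast_zmod_eq_zero_iff_dvd]
      push_cast
      push_cast at ha
      rw [ha]
      decide
    exact_mod_cast h4
  have : P.b ^ P.p - 1 - P.a ^ P.p = P.b ^ P.p - (1 + P.a ^ P.p) := by ring
  rw [this]
  exact dvd_sub hb4 h14

/-- `16 ∣ b ^ p`, hence `16 ∣ -(a ^ p) * b ^ p`. -/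
theorem sixteen_dvd_a4_num (P : FreyPackage) : (16 : ℤ) ∣ -(P.a ^ P.p) * (P.b ^ P.p) := by
  have hb : (2 : ℤ) ∣ P.b := (ZMod.intCast_zmod_eq_zero_iff_dvd P.b 2).1 P.hb2
  have hp5 := P.hp5
  have h1 : (2 : ℤ) ^ 4 ∣ P.b ^ 4 := pow_dvd_pow_of_dvd hb 4
  have h2 : P.b ^ 4 ∣ P.b ^ P.p := pow_dvd_pow _ (by omega)
  exact Dvd.dvd.mul_left ((by norm_num : (16 : ℤ) = 2 ^ 4) ▸ h1.trans h2) _

/-- The integral Frey curve base-changes to the rational Frey curve. -/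
theorem freyCurveInt_map (P : FreyPackage) :
    P.freyCurveInt.map (Int.castRingHom ℚ) = P.freyCurve := by
  have h4 := four_dvd_a2_num P
  have h16 := sixteen_dvd_a4_num P
  ext
  · simp [FreyPackage.freyCurveInt, FreyPackage.freyCurve]
  · simp only [FreyPackage.freyCurveInt, FreyPackage.freyCurve, WeierstrassCurve.map_a₂,
      eq_intCast]
    rw [Int.cast_div h4 (by norm_num)]
    push_cast
    ring
  · simp [FreyPackage.freyCurveInt, FreyPackage.freyCurve]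
  · simp only [FreyPackage.freyCurveInt, FreyPackage.freyCurve, WeierstrassCurve.map_a₄,
      eq_intCast]
    rw [Int.cast_div h16 (by norm_num)]
    push_cast
    ring
  · simp [FreyPackage.freyCurveInt, FreyPackage.freyCurve]

/-- The integral Frey curve is an integral model of the rational Frey curve. -/
theorem freyCurveInt_isIntegralModelOf (P : FreyPackage) :
    P.freyCurveInt.IsIntegralModelOf P.freyCurve :=
  ⟨1, by rw [one_smul, freyCurveInt_map]⟩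

/-- Discriminant of the rational Frey curve. -/
theorem freyCurve_Δ (P : FreyPackage) :
    P.freyCurve.Δ * 2 ^ 8 = ((P.a * P.b * P.c : ℤ) : ℚ) ^ (2 * P.p) := by
  have hc : ((P.c : ℤ) : ℚ) ^ P.p = (P.a : ℚ) ^ P.p + (P.b : ℚ) ^ P.p := by
    have := congrArg (Int.cast : ℤ → ℚ) P.hFLT
    push_cast at this
    exact this.symm
  have : ((P.a * P.b * P.c : ℤ) : ℚ) ^ (2 * P.p)
      = ((P.a : ℚ) ^ P.p) ^ 2 * ((P.b : ℚ) ^ P.p) ^ 2 * ((P.c : ℚ) ^ P.p) ^ 2 := by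
    push_cast
    rw [mul_pow, mul_pow, mul_comm 2 P.p, pow_mul, pow_mul, pow_mul]
  rw [this, hc]
  simp only [WeierstrassCurve.Δ, WeierstrassCurve.b₂, WeierstrassCurve.b₄, WeierstrassCurve.b₆,
    WeierstrassCurve.b₈, FreyPackage.freyCurve]
  ring

/-- Discriminant of the integral Frey curve: `Δ * 2 ^ 8 = (a b c) ^ (2 p)`. -/
theorem freyCurveInt_Δ (P : FreyPackage) :
    P.freyCurveInt.Δ * 2 ^ 8 = (P.a * P.b * P.c) ^ (2 * P.p) := by
  have h := freyCurve_Δ P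
  rw [← freyCurveInt_map, WeierstrassCurve.map_Δ] at h
  have h' : ((P.freyCurveInt.Δ * 2 ^ 8 : ℤ) : ℚ) = (((P.a * P.b * P.c) ^ (2 * P.p) : ℤ) : ℚ) := by
    push_cast
    push_cast at h
    exact h
  exact Int.cast_injective h'

theorem freyCurveInt_Δ_ne_zero (P : FreyPackage) : P.freyCurveInt.Δ ≠ 0 := by
  intro h0
  have h := freyCurveInt_Δ P
  rw [h0, zero_mul] at h
  exact pow_ne_zero _ P.habc0 h.symm

/-- A prime dividing the discriminant of the integral Frey curve divides `a b c`. -/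
theorem prime_dvd_abc_of_dvd_Δ (P : FreyPackage) {q : ℕ} (hq : q.Prime)
    (h : (q : ℤ) ∣ P.freyCurveInt.Δ) : (q : ℤ) ∣ P.a * P.b * P.c := by
  have h1 : (q : ℤ) ∣ (P.a * P.b * P.c) ^ (2 * P.p) := by
    rw [← freyCurveInt_Δ]
    exact Dvd.dvd.mul_right h _
  exact (Nat.prime_iff_prime_int.mp hq).dvd_of_dvd_pow h1

/-- `c₄` of the rational Frey curve. -/
theorem freyCurve_c₄ (P : FreyPackage) :
    P.freyCurve.c₄ = ((P.a ^ P.p) ^ 2 + P.a ^ P.p * P.b ^ P.p + (P.b ^ P.p) ^ 2 : ℤ) := by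
  simp only [WeierstrassCurve.c₄, WeierstrassCurve.b₂, WeierstrassCurve.b₄,
    FreyPackage.freyCurve]
  push_cast
  ring

/-- `c₄` of the integral Frey curve: `c₄ = A² + A B + B²` with `A = a ^ p`, `B = b ^ p`. -/
theorem freyCurveInt_c₄ (P : FreyPackage) :
    P.freyCurveInt.c₄ = (P.a ^ P.p) ^ 2 + P.a ^ P.p * P.b ^ P.p + (P.b ^ P.p) ^ 2 := by
  have h := freyCurve_c₄ P
  rw [← freyCurveInt_map, WeierstrassCurve.map_c₄] at h
  exact Int.cast_injective h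

/-- A prime cannot divide two of `a`, `b` (coprimality, in the form used below). -/
theorem not_prime_dvd_both {x y : ℤ} (hxy : gcd x y = 1) {q : ℕ} (hq : q.Prime)
    (hx : (q : ℤ) ∣ x) (hy : (q : ℤ) ∣ y) : False := by
  have h1 : (q : ℤ) ∣ gcd x y := dvd_gcd hx hy
  rw [hxy] at h1
  have h2 : (q : ℤ) ≤ 1 := Int.le_of_dvd one_pos h1
  have := hq.two_le
  omega

/-- The integral Frey curve is semistable (in the Prelude sense). -/
theorem freyCurveInt_isSemistableModel (P : FreyPackage) : P.freyCurveInt.IsSemistableModel := by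
  intro q hq hqΔ hqc4
  have hqi : Prime (q : ℤ) := Nat.prime_iff_prime_int.mp hq
  rw [freyCurveInt_c₄] at hqc4
  have habc := prime_dvd_abc_of_dvd_Δ P hq hqΔ
  have hp0 : P.p ≠ 0 := P.hp0
  -- helper: q ∣ x ^ p → q ∣ x
  have hpow : ∀ x : ℤ, (q : ℤ) ∣ x ^ P.p → (q : ℤ) ∣ x := fun x hx => hqi.dvd_of_dvd_pow hx
  rcases hqi.dvd_or_dvd habc with hab | hc
  · rcases hqi.dvd_or_dvd hab with ha | hb
    · -- q ∣ a, so q ∣ B², so q ∣ b
      have hA : (q : ℤ) ∣ P.a ^ P.p := dvd_pow ha hp0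
      have hB2 : (q : ℤ) ∣ (P.b ^ P.p) ^ 2 := by
        have h1 : (q : ℤ) ∣ (P.a ^ P.p) ^ 2 + P.a ^ P.p * P.b ^ P.p :=
          dvd_add (dvd_pow hA two_ne_zero) (Dvd.dvd.mul_right hA _)
        exact (dvd_add_right h1).mp hqc4
      exact not_prime_dvd_both P.hgcdab hq ha (hpow _ (hqi.dvd_of_dvd_pow hB2))
    · -- q ∣ b, so q ∣ A², so q ∣ a
      have hB : (q : ℤ) ∣ P.b ^ P.p := dvd_pow hb hp0
      have hA2 : (q : ℤ) ∣ (P.a ^ P.p) ^ 2 := by
        have h1 : (q : ℤ) ∣ P.a ^ P.p * P.b ^ P.p + (P.b ^ P.p) ^ 2 :=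
          dvd_add (Dvd.dvd.mul_left hB _) (dvd_pow hB two_ne_zero)
        have h2 : (P.a ^ P.p) ^ 2 + P.a ^ P.p * P.b ^ P.p + (P.b ^ P.p) ^ 2
            = (P.a ^ P.p) ^ 2 + (P.a ^ P.p * P.b ^ P.p + (P.b ^ P.p) ^ 2) := by ring
        rw [h2] at hqc4
        exact (dvd_add_left h1).mp hqc4
      exact not_prime_dvd_both P.hgcdab hq (hpow _ (hqi.dvd_of_dvd_pow hA2)) hb
  · -- q ∣ c: c₄ = C² - A B, so q ∣ A B
    have hC : (q : ℤ) ∣ P.c ^ P.p := dvd_pow hc hp0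
    have hAB : (q : ℤ) ∣ P.a ^ P.p * P.b ^ P.p := by
      have h2 : P.a ^ P.p * P.b ^ P.p
          = (P.c ^ P.p) ^ 2 - ((P.a ^ P.p) ^ 2 + P.a ^ P.p * P.b ^ P.p + (P.b ^ P.p) ^ 2) := by
        rw [← P.hFLT]; ring
      rw [h2]
      exact dvd_sub (dvd_pow hC two_ne_zero) hqc4
    rcases hqi.dvd_or_dvd hAB with hA | hB
    · exact not_prime_dvd_both P.hgcdac hq (hpow _ hA) hc
    · exact not_prime_dvd_both P.hgcdbc hq (hpow _ hB) hc

/-- **Conditional S06**: if the integral Frey curve is modular of exact conductor level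
(the conclusion of S59 for `P.freyCurveInt`), then the statement of S06 holds. -/
theorem s06_of_exactConductor (P : FreyPackage)
    (h : Mlc1IsModularModelOfExactConductorLevel P.freyCurveInt) :
    ∃ N : ℕ, P.IsConductorLevel N ∧ P.ModularRepOfLevel N := by
  obtain ⟨N, hN, hsq, hiff, f, hf, hcoef⟩ := h
  obtain ⟨𝔪, hmax, hpm⟩ := FLTPrelim.exists_maximalIdeal_natCast_prime_mem P.pp
  refine ⟨N, ⟨hN, hsq, fun q hq hqN => ?_⟩, f, P.freyCurveInt, 𝔪, hf,
    freyCurveInt_isIntegralModelOf P, hmax, hpm, fun ℓ hℓ hgood hℓN _ => ?_⟩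
  · exact prime_dvd_abc_of_dvd_Δ P hq ((hiff q hq).mp hqN)
  · refine ⟨((P.freyCurveInt.apOfModel ℓ : ℤ) : integralClosure ℤ ℂ), ?_, ?_⟩
    · rw [hcoef ℓ hℓ hgood hℓN]
      simp
    · simp

end Fermat.Agent.S06.helper306
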